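/-
GATE-E / GE9-ETA-NE (helper63): **the binder `hη : etaIdeal π ≠ ⊥` of `Ind.chain` / `numcrit`**
from `[IsReduced T]`.

`O` a domain, `T` a noetherian REDUCED `O`-algebra, integral over `O` (e.g. finite), with an
augmentation `π : T →ₐ[O] O`.  Then `𝔭 = ker π` is a MINIMAL prime of `T` (incomparability over
`(0) ⊂ O`), the intersection `J` of the other minimal primes satisfies `J · 𝔭 ⊆ J ∩ 𝔭 = nil T = 0`
and `J ⊄ 𝔭`; any `x₀ ∈ J ∖ 𝔭` lies in `Ann 𝔭` with `π x₀ ≠ 0`.  Hence `η_T ≠ 0`.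

For the Hecke rings: `GS/Pet.isReduced_heckeAlgebra`, `GB/B4/Datum/TQReduced.isReduced_TQ`.
Mathlib + `GE9/NumCrit/Defs` only.
-/
import Mathlib
import Fermat.Agent.GE9.NumCrit.Defs

set_option autoImplicit false

namespace Fermat.Agent.GE9.Ind

open Fermat.Agent.GE9.NumCrit

variable {O T : Type*} [CommRing O] [IsDomain O] [CommRing T] [Algebra O T]

omit [IsDomain O] in
/-- the kernel of an augmentation contracts to `(0)`. -/
theorem comap_ker_aug (π : T →ₐ[O] O) :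
    Ideal.comap (algebraMap O T) (RingHom.ker (π : T →+* O)) = ⊥ := by
  rw [eq_bot_iff]
  intro c hc
  rw [Ideal.mem_comap, RingHom.mem_ker] at hc
  have h1 : (π : T →+* O) (algebraMap O T c) = c := by
    change π (algebraMap O T c) = c
    rw [AlgHom.commutes, Algebra.algebraMap_self, RingHom.id_apply]
  rw [h1] at hc
  rw [hc]
  exact Ideal.zero_mem _

/-- **the kernel of an augmentation of an integral `O`-algebra is a minimal prime.** -/
theorem ker_aug_mem_minimalPrimes [Algebra.IsIntegral O T] (π : T →ₐ[O] O) :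
    RingHom.ker (π : T →+* O) ∈ minimalPrimes T := by
  have hprime : (RingHom.ker (π : T →+* O)).IsPrime := RingHom.ker_isPrime _
  refine ⟨⟨hprime, bot_le⟩, ?_⟩
  rintro 𝔮 ⟨h𝔮, -⟩ hle
  by_contra hnot
  obtain ⟨x, hx𝔭, hx𝔮⟩ := Set.not_subset.mp hnot
  have hlt := Ideal.comap_lt_comap_of_integral_mem_sdiff (R := O) hle
    (show x ∈ ((RingHom.ker (π : T →+* O) : Ideal T) : Set T) \ (𝔮 : Set T) from ⟨hx𝔭, hx𝔮⟩)
    (Algebra.IsIntegral.isIntegral x)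
  rw [comap_ker_aug π] at hlt
  exact not_lt_bot hlt

/-- **`η_T ≠ 0` for a reduced noetherian `T`, integral over the domain `O`.** -/
theorem exists_ann_ker_of_isReduced [IsNoetherianRing T] [IsReduced T] [Algebra.IsIntegral O T]
    (π : T →ₐ[O] O) : ∃ x₀ : T, (∀ x : T, π x = 0 → x₀ * x = 0) ∧ π x₀ ≠ 0 := by
  classical
  set 𝔭 : Ideal T := RingHom.ker (π : T →+* O) with h𝔭
  have hprime : 𝔭.IsPrime := RingHom.ker_isPrime _
  have hmin : 𝔭 ∈ minimalPrimes T := ker_aug_mem_minimalPrimes π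
  have hfin : (minimalPrimes T).Finite := minimalPrimes.finite_of_isNoetherianRing T
  set s : Finset (Ideal T) := hfin.toFinset.erase 𝔭 with hs
  set J : Ideal T := s.inf id with hJ
  -- `J ⊓ 𝔭 = ⊥`
  have hinf : J ⊓ 𝔭 = ⊥ := by
    have h1 : (insert 𝔭 s).inf id = J ⊓ 𝔭 := by
      rw [Finset.inf_insert, id, inf_comm]
    have h2 : insert 𝔭 s = hfin.toFinset := by
      rw [hs, Finset.insert_erase]
      exact hfin.mem_toFinset.mpr hmin
    rw [← h1, h2, Finset.inf_id_eq_sInf, Set.Finite.coe_toFinset]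
    have h3 : sInf (minimalPrimes T) = (⊥ : Ideal T).radical := Ideal.sInf_minimalPrimes
    rw [h3, Ideal.radical_bot_of_isReduced]
  -- `J ⊄ 𝔭`
  have hJ𝔭 : ¬ J ≤ 𝔭 := by
    intro hle
    obtain ⟨𝔮, h𝔮s, h𝔮le⟩ := (Ideal.IsPrime.inf_le' hprime).mp hle
    rw [hs, Finset.mem_erase] at h𝔮s
    obtain ⟨hne, h𝔮mem⟩ := h𝔮s
    have h𝔮min : 𝔮 ∈ minimalPrimes T := hfin.mem_toFinset.mp h𝔮mem
    have h𝔮prime : 𝔮.IsPrime := h𝔮min.1.1
    have h2 : 𝔭 ≤ 𝔮 := hmin.2 ⟨h𝔮prime, bot_le⟩ h𝔮le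
    exact hne (le_antisymm h𝔮le h2)
  obtain ⟨x₀, hx₀J, hx₀𝔭⟩ := Set.not_subset.mp hJ𝔭
  refine ⟨x₀, fun x hx => ?_, fun h0 => hx₀𝔭 ?_⟩
  · have hx𝔭 : x ∈ 𝔭 := by rw [h𝔭, RingHom.mem_ker]; exact hx
    have h1 : x₀ * x ∈ J ⊓ 𝔭 :=
      ⟨Ideal.mul_mem_right _ _ hx₀J, Ideal.mul_mem_left _ _ hx𝔭⟩
    rw [hinf] at h1
    exact h1
  · change x₀ ∈ 𝔭
    rw [h𝔭, RingHom.mem_ker]
    exact h0

/-- **the binder `hη` of `Ind.chain`, `Ind.step`, `numcrit`.** -/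
theorem etaIdeal_ne_bot_of_isReduced [IsNoetherianRing T] [IsReduced T] [Algebra.IsIntegral O T]
    (π : T →ₐ[O] O) : etaIdeal π ≠ ⊥ := by
  obtain ⟨x₀, hx₀, hπ⟩ := exists_ann_ker_of_isReduced π
  intro hbot
  have hmem : π x₀ ∈ etaIdeal π := (mem_etaIdeal π _).mpr ⟨x₀, hx₀, rfl⟩
  rw [hbot] at hmem
  exact hπ hmem

/-- the same for `T` finite over `O` (the spelling of `Ind.chain`). -/
theorem etaIdeal_ne_bot_of_finite [IsNoetherianRing O] [Module.Finite O T] [IsReduced T]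
    (π : T →ₐ[O] O) : etaIdeal π ≠ ⊥ := by
  have : IsNoetherianRing T := IsNoetherianRing.of_finite O T
  exact etaIdeal_ne_bot_of_isReduced π

end Fermat.Agent.GE9.Ind
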