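/-
GATE-E / GE9-IND-BASE (helper63) — file 1: **RECENTER**.

`Wrapper.numcrit`, `Tate.card_cotangent_eq_card_etaIdeal(_of_finite)` and
`exists_bijective_cotangent` take a presentation `ρ : O⟦X₁..X_m⟧ ↠ R` with
`hρε : ∀ u, π (ρ u) = constantCoeff u`, but the presentations produced by S56 (`γ`) and S57 (`L.ψ`)
are ARBITRARY surjections: the `O`-point `π` sits at `X_i ↦ a_i ∈ 𝔪_O`.

* `exists_translate` : for `a : Fin m → 𝔪_O` the `O`-algebra automorphism `X_i ↦ X_i + a_i` of
  `O⟦X₁..X_m⟧` (`O` complete noetherian local);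
* `recenter` : every surjection `ψ : O⟦X⟧ ↠ R` onto an augmented `O`-algebra `(R, π)` can be
  precomposed with such an automorphism `τ` so that `π ∘ ψ ∘ τ = constantCoeff`;
* `ker_comp_equiv` : `ker (ψ ∘ τ) = span (range (τ⁻¹ ∘ f))` when `ker ψ = span (range f)`
  (the number of generators is preserved: complete intersections stay complete intersections).
-/
import Mathlib
import Fermat.Agent.S53.PSEval
import Fermat.Agent.S53.PSComplete
import Fermat.Agent.GE9.NumCrit.PS

set_option autoImplicit false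

namespace Fermat.Agent.GE9.Ind

open IsLocalRing MvPowerSeries

variable {O : Type*} [CommRing O] [IsLocalRing O] [IsNoetherianRing O]
  [IsAdicComplete (maximalIdeal O) O] {m : ℕ}

omit [IsNoetherianRing O] [IsAdicComplete (maximalIdeal O) O] in
theorem X_add_C_mem_maximalIdeal (a : Fin m → O) (ha : ∀ i, a i ∈ maximalIdeal O) (i : Fin m) :
    (X i + C (a i) : MvPowerSeries (Fin m) O) ∈ maximalIdeal (MvPowerSeries (Fin m) O) := by
  rw [Fermat.Agent.S53.PSC.mem_maximalIdeal_iff O (Fin m), map_add, constantCoeff_X,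
    constantCoeff_C, zero_add]
  exact ha i

omit [IsLocalRing O] [IsNoetherianRing O] [IsAdicComplete (maximalIdeal O) O] in
theorem algHom_C {A : Type*} [CommRing A] [Algebra O A]
    (φ : MvPowerSeries (Fin m) O →ₐ[O] A) (c : O) : φ (C c) = algebraMap O A c := by
  have h := φ.commutes c
  rwa [MvPowerSeries.algebraMap_apply, Algebra.algebraMap_self, RingHom.id_apply] at h

/-- **the translation automorphism** `X_i ↦ X_i + a_i`, `a_i ∈ 𝔪_O`. -/
theorem exists_translate (a : Fin m → O) (ha : ∀ i, a i ∈ maximalIdeal O) :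
    ∃ τ : MvPowerSeries (Fin m) O ≃ₐ[O] MvPowerSeries (Fin m) O, ∀ i, τ (X i) = X i + C (a i) := by
  have hc : IsAdicComplete (maximalIdeal (MvPowerSeries (Fin m) O)) (MvPowerSeries (Fin m) O) :=
    Fermat.Agent.S53.isAdicComplete_mvPowerSeries O (Fin m)
  have hna : ∀ i, -a i ∈ maximalIdeal O := fun i => (maximalIdeal O).neg_mem (ha i)
  obtain ⟨τ₁, h₁⟩ := Fermat.Agent.S53.exists_algHom_X (𝒪 := O)
    (fun i => (X i + C (a i) : MvPowerSeries (Fin m) O)) (X_add_C_mem_maximalIdeal a ha)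
  obtain ⟨τ₂, h₂⟩ := Fermat.Agent.S53.exists_algHom_X (𝒪 := O)
    (fun i => (X i + C (-a i) : MvPowerSeries (Fin m) O)) (X_add_C_mem_maximalIdeal _ hna)
  have hX : ∀ i, (X i : MvPowerSeries (Fin m) O) ∈ maximalIdeal (MvPowerSeries (Fin m) O) :=
    fun i => Fermat.Agent.S53.PSC.X_mem O (Fin m) i
  have h12 : τ₁.comp τ₂ = AlgHom.id O _ := by
    refine Fermat.Agent.S53.algHom_ext_X _ _ (fun i => ?_) (fun i => ?_)
    · rw [AlgHom.comp_apply, h₂, map_add, h₁, algHom_C, MvPowerSeries.algebraMap_apply,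
        Algebra.algebraMap_self, RingHom.id_apply, map_neg, add_neg_cancel_right]
      exact hX i
    · rw [AlgHom.comp_apply, h₂, map_add, h₁, algHom_C, MvPowerSeries.algebraMap_apply,
        Algebra.algebraMap_self, RingHom.id_apply, map_neg, add_neg_cancel_right]
      rfl
  have h21 : τ₂.comp τ₁ = AlgHom.id O _ := by
    refine Fermat.Agent.S53.algHom_ext_X _ _ (fun i => ?_) (fun i => ?_)
    · rw [AlgHom.comp_apply, h₁, map_add, h₂, algHom_C, MvPowerSeries.algebraMap_apply,
        Algebra.algebraMap_self, RingHom.id_apply, map_neg, neg_add_cancel_right]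
      exact hX i
    · rw [AlgHom.comp_apply, h₁, map_add, h₂, algHom_C, MvPowerSeries.algebraMap_apply,
        Algebra.algebraMap_self, RingHom.id_apply, map_neg, neg_add_cancel_right]
      rfl
  exact ⟨AlgEquiv.ofAlgHom τ₁ τ₂ h12 h21, fun i => h₁ i⟩

omit [IsLocalRing O] [IsNoetherianRing O] [IsAdicComplete (maximalIdeal O) O] in
/-- an `O`-algebra hom `O⟦X⟧ → O` killing the variables is the constant coefficient. -/
theorem algHom_eq_constantCoeff (χ : MvPowerSeries (Fin m) O →ₐ[O] O) (h : ∀ i, χ (X i) = 0)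
    (u : MvPowerSeries (Fin m) O) : χ u = constantCoeff u := by
  have hle : Ideal.span (Set.range fun i : Fin m => (X i : MvPowerSeries (Fin m) O)) ≤
      RingHom.ker (χ : MvPowerSeries (Fin m) O →+* O) := by
    rw [Ideal.span_le]
    rintro _ ⟨i, rfl⟩
    exact h i
  have hmem : u - C (constantCoeff u) ∈
      RingHom.ker (constantCoeff (σ := Fin m) (R := O)) := by
    rw [RingHom.mem_ker, map_sub, constantCoeff_C, sub_self]
  rw [Fermat.Agent.GE9.NumCrit.ker_constantCoeff_eq_span] at hmem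
  have h1 : χ (u - C (constantCoeff u)) = 0 := hle hmem
  rw [map_sub, sub_eq_zero, algHom_C, Algebra.algebraMap_self, RingHom.id_apply] at h1
  exact h1

/-- **RECENTER.** -/
theorem recenter {R : Type*} [CommRing R] [Algebra O R] (πR : R →ₐ[O] O)
    (ψ : MvPowerSeries (Fin m) O →ₐ[O] R) (hψ : Function.Surjective ψ) :
    ∃ τ : MvPowerSeries (Fin m) O ≃ₐ[O] MvPowerSeries (Fin m) O,
      Function.Surjective (ψ.comp (τ : MvPowerSeries (Fin m) O →ₐ[O] MvPowerSeries (Fin m) O)) ∧
      ∀ u, πR (ψ.comp (τ : MvPowerSeries (Fin m) O →ₐ[O] MvPowerSeries (Fin m) O) u) =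
        constantCoeff u := by
  set χ : MvPowerSeries (Fin m) O →ₐ[O] O := πR.comp ψ with hχ
  have hχsurj : Function.Surjective χ := fun c => ⟨C c, by
    rw [algHom_C, Algebra.algebraMap_self, RingHom.id_apply]⟩
  have hloc : IsLocalHom (χ : MvPowerSeries (Fin m) O →+* O) :=
    Function.Surjective.isLocalHom (χ : MvPowerSeries (Fin m) O →+* O) hχsurj
  have hb : ∀ i, -(χ (X i)) ∈ maximalIdeal O := by
    intro i
    refine (maximalIdeal O).neg_mem ?_
    have hX : (X i : MvPowerSeries (Fin m) O) ∈ maximalIdeal (MvPowerSeries (Fin m) O) :=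
      Fermat.Agent.S53.PSC.X_mem O (Fin m) i
    by_contra hcon
    have hu : IsUnit ((χ : MvPowerSeries (Fin m) O →+* O) (X i)) := by
      by_contra h
      exact hcon h
    exact hX (hloc.map_nonunit _ hu)
  obtain ⟨τ, hτ⟩ := exists_translate (fun i => -(χ (X i))) hb
  refine ⟨τ, hψ.comp τ.surjective, fun u => ?_⟩
  have hkill : ∀ i, (χ.comp (τ : MvPowerSeries (Fin m) O →ₐ[O] MvPowerSeries (Fin m) O))
      (X i) = 0 := by
    intro i
    rw [AlgHom.comp_apply]
    change χ (τ (X i)) = 0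
    rw [hτ, map_add, algHom_C, Algebra.algebraMap_self, RingHom.id_apply, add_neg_cancel]
  exact algHom_eq_constantCoeff _ hkill u

omit [IsLocalRing O] [IsNoetherianRing O] [IsAdicComplete (maximalIdeal O) O] in
/-- the kernel of `ψ ∘ τ` is generated by the `τ⁻¹`-translates of generators of `ker ψ`. -/
theorem ker_comp_equiv {R : Type*} [CommRing R] [Algebra O R]
    (ψ : MvPowerSeries (Fin m) O →ₐ[O] R)
    (τ : MvPowerSeries (Fin m) O ≃ₐ[O] MvPowerSeries (Fin m) O) {k : ℕ}
    (f : Fin k → MvPowerSeries (Fin m) O)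
    (hker : RingHom.ker ψ = Ideal.span (Set.range f)) :
    RingHom.ker (ψ.comp (τ : MvPowerSeries (Fin m) O →ₐ[O] MvPowerSeries (Fin m) O)) =
      Ideal.span (Set.range fun i => τ.symm (f i)) := by
  apply le_antisymm
  · intro u hu
    have h1 : τ u ∈ RingHom.ker ψ := hu
    rw [hker] at h1
    have h2 : τ.symm (τ u) ∈ Ideal.map (τ.symm : MvPowerSeries (Fin m) O →+*
        MvPowerSeries (Fin m) O) (Ideal.span (Set.range f)) := Ideal.mem_map_of_mem _ h1
    rw [AlgEquiv.symm_apply_apply, Ideal.map_span, ← Set.range_comp] at h2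
    exact h2
  · rw [Ideal.span_le]
    rintro _ ⟨i, rfl⟩
    have hfi : f i ∈ RingHom.ker ψ := by rw [hker]; exact Ideal.subset_span ⟨i, rfl⟩
    change ψ (τ (τ.symm (f i))) = 0
    rw [AlgEquiv.apply_symm_apply]
    exact hfi

end Fermat.Agent.GE9.Ind
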