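/-
GATE-E / E9-IND (helper63): **the induction step `Σ → Σ ∪ {q}` of the non-minimal `R = T`**, abstract
and purely numerical (Diamond's module form of the Wiles–Lenstra criterion).

Stage data: `φ : R ↠ T` (`T` finite free over the complete DVR `O`), `π_T : T → O`, a presentation
`ρ : O⟦X₁..X_m⟧ ↠ R`, and three numbers

* `tanCard π_R   = #(𝔭_R / 𝔭_R²)`            (`π_R = π_T ∘ φ`),
* `etaCard π_T   = #(O ⧸ η_T)`,
* `w            = #Ω_L`                       (congruence module of the Hecke module `L`; a bare `ℕ` here).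

Invariant carried through the induction:  `tanCard = etaCard` and `w = etaCard ^ d`
(the numerical shadow of "`R ≅ T` complete intersection and `L` free of rank `d`").

`step` : if the previous stage has `tanCard = etaCard = a` and `w = a ^ d`, and
  (GROWTH)  `tanCard' ≤ a * c`             [GE9/TanGrow],
  (ETA)     `(a * c) ^ d ≤ w'`             [GE9/Eta: `#Ω' = #Ω · #(O/c_q)^d`],
  (M1)      `w' ≤ etaCard' ^ d`            [GE9/NumCrit/ModForm],
then `φ'` is bijective, `T'` is a complete intersection, and the invariant holds at the new stage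
(moreover `tanCard' = a * c`: the Selmer group has exactly the expected order).
-/
import Mathlib
import Fermat.Agent.GE9.NumCrit.Wrapper

set_option autoImplicit false

namespace Fermat.Agent.GE9.Ind

open Fermat.Agent.GE9.NumCrit IsLocalRing MvPowerSeries

variable {O : Type*} [CommRing O]

/-- `#(𝔭/𝔭²)` for an augmented `O`-algebra. -/
noncomputable def tanCard {R : Type*} [CommRing R] [Algebra O R] (π : R →ₐ[O] O) : ℕ :=
  Nat.card (RingHom.ker π).Cotangent

/-- `#(O ⧸ η)` for an augmented `O`-algebra. -/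
noncomputable def etaCard {T : Type*} [CommRing T] [Algebra O T] (π : T →ₐ[O] O) : ℕ :=
  Nat.card (O ⧸ etaIdeal π)

variable [IsDomain O] [IsDiscreteValuationRing O]
  [IsAdicComplete (maximalIdeal O) O] [Finite (ResidueField O)]

/-- **The induction step.** -/
theorem step {R' T' : Type*} [CommRing R'] [Algebra O R'] [CommRing T'] [Algebra O T']
    [Module.Finite O T'] [Module.Free O T'] (φ' : R' →ₐ[O] T') (hφ' : Function.Surjective φ')
    (πT' : T' →ₐ[O] O) {m' : ℕ} (ρ' : MvPowerSeries (Fin m') O →ₐ[O] R')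
    (hρ' : Function.Surjective ρ') (hρε' : ∀ u, πT' (φ' (ρ' u)) = constantCoeff u)
    (hη' : etaIdeal πT' ≠ ⊥) {d : ℕ} (hd : d ≠ 0) (a c w' : ℕ)
    [Finite (RingHom.ker (πT'.comp φ')).Cotangent]
    (hgrow : tanCard (πT'.comp φ') ≤ a * c) (heta : (a * c) ^ d ≤ w')
    (hM1 : w' ≤ etaCard πT' ^ d) :
    Function.Bijective φ' ∧
      (∃ f : Fin m' → MvPowerSeries (Fin m') O,
        RingHom.ker (φ'.comp ρ') = Ideal.span (Set.range f)) ∧
      tanCard (πT'.comp φ') = etaCard πT' ∧ tanCard (πT'.comp φ') = a * c ∧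
      w' = etaCard πT' ^ d := by
  have h1 : tanCard (πT'.comp φ') ^ d ≤ etaCard πT' ^ d :=
    ((Nat.pow_le_pow_left hgrow d).trans heta).trans hM1
  have h2 : tanCard (πT'.comp φ') ≤ etaCard πT' := (Nat.pow_le_pow_iff_left hd).mp h1
  obtain ⟨hbij, f, hf⟩ := numcrit φ' hφ' πT' ρ' hρ' hρε' hη' h2
  -- `η_{R'} = η_{T'}` since `φ'` is an isomorphism
  have hηeq : etaIdeal (πT'.comp φ') = etaIdeal πT' :=
    etaIdeal_eq_of_equiv (AlgEquiv.ofBijective φ' hbij) (πT'.comp φ') πT'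
      (AlgHom.ext fun x => rfl)
  have h3 : etaCard πT' ≤ tanCard (πT'.comp φ') := by
    have h := card_quotient_etaIdeal_le (πT'.comp φ') ρ' hρ' hρε'
    rw [hηeq] at h
    exact h
  have h4 : tanCard (πT'.comp φ') = etaCard πT' := le_antisymm h2 h3
  have h5 : etaCard πT' ^ d ≤ (a * c) ^ d := by
    rw [← h4]; exact Nat.pow_le_pow_left hgrow d
  have h6 : w' = etaCard πT' ^ d := le_antisymm hM1 (h5.trans heta)
  have h7 : (a * c) ^ d = etaCard πT' ^ d := le_antisymm (heta.trans hM1) h5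
  have h8 : a * c = etaCard πT' := Nat.pow_left_injective hd h7
  exact ⟨hbij, ⟨f, hf⟩, h4, h4.trans h8.symm, h6⟩

/-- **The induction along a chain of stages** `Σ₀ ⊂ Σ₁ ⊂ ⋯` (indexed by `ℕ`).
`w n = #Ω_{L_n}`, `c n = #(O ⧸ c_{q_{n+1}})`. -/
theorem chain {R T : ℕ → Type*} [∀ n, CommRing (R n)] [∀ n, Algebra O (R n)]
    [∀ n, CommRing (T n)] [∀ n, Algebra O (T n)] [∀ n, Module.Finite O (T n)]
    [∀ n, Module.Free O (T n)] (φ : ∀ n, R n →ₐ[O] T n) (hφ : ∀ n, Function.Surjective (φ n))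
    (πT : ∀ n, T n →ₐ[O] O) (m : ℕ → ℕ) (ρ : ∀ n, MvPowerSeries (Fin (m n)) O →ₐ[O] R n)
    (hρ : ∀ n, Function.Surjective (ρ n))
    (hρε : ∀ n u, πT n (φ n (ρ n u)) = constantCoeff u)
    (hη : ∀ n, etaIdeal (πT n) ≠ ⊥) {d : ℕ} (hd : d ≠ 0) (c w : ℕ → ℕ)
    (h0 : Finite (RingHom.ker ((πT 0).comp (φ 0))).Cotangent ∧
      tanCard ((πT 0).comp (φ 0)) = etaCard (πT 0) ∧ w 0 = etaCard (πT 0) ^ d)
    (hgrow : ∀ n, Finite (RingHom.ker ((πT n).comp (φ n))).Cotangent →
      Finite (RingHom.ker ((πT (n + 1)).comp (φ (n + 1)))).Cotangent ∧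
        tanCard ((πT (n + 1)).comp (φ (n + 1))) ≤ tanCard ((πT n).comp (φ n)) * c n)
    (heta : ∀ n, w n * c n ^ d ≤ w (n + 1))
    (hM1 : ∀ n, w n ≤ etaCard (πT n) ^ d) :
    ∀ n, Finite (RingHom.ker ((πT n).comp (φ n))).Cotangent ∧
      tanCard ((πT n).comp (φ n)) = etaCard (πT n) ∧ w n = etaCard (πT n) ^ d ∧
      (0 < n → Function.Bijective (φ n) ∧
        ∃ f : Fin (m n) → MvPowerSeries (Fin (m n)) O,
          RingHom.ker ((φ n).comp (ρ n)) = Ideal.span (Set.range f)) := by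
  intro n
  induction n with
  | zero => exact ⟨h0.1, h0.2.1, h0.2.2, fun h => absurd h (lt_irrefl 0)⟩
  | succ n ih =>
    obtain ⟨hfin, hte, hw, -⟩ := ih
    obtain ⟨hfin', hg⟩ := hgrow n hfin
    have heta' : (tanCard ((πT n).comp (φ n)) * c n) ^ d ≤ w (n + 1) := by
      rw [mul_pow, hte, ← hw]; exact heta n
    obtain ⟨hbij, hci, h4, -, h6⟩ := step (φ (n + 1)) (hφ (n + 1)) (πT (n + 1)) (ρ (n + 1))
      (hρ (n + 1)) (hρε (n + 1)) (hη (n + 1)) hd (tanCard ((πT n).comp (φ n))) (c n) (w (n + 1))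
      hg heta' (hM1 (n + 1))
    exact ⟨hfin', h4, h6, fun _ => ⟨hbij, hci⟩⟩

end Fermat.Agent.GE9.Ind
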