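/-
GATE-E / E9-BASE = GE9-IND-BASE (helper63) — file 2: **the base case `h0` of `Ind.chain`**.

Input (the output of E6 = `GE6/MinRT.bijective_of_patchingDatum` + S57): `φ : R → T` BIJECTIVE,
`T` finite over the complete DVR `O`, a presentation `ψ : O⟦X₁..X_m⟧ ↠ R` with `m` relations
(`ker ψ = (f₁..f_m)`), the Hecke module `L` FREE over `T`.

* `(B1)` `base_tan` : `#(𝔭_R/𝔭_R²) = #(O ⧸ η_T)` and finiteness, from Tate–Wiebe
  (`GE9/NumCrit/Tate` (helper82) + `TateFinal.detNotMemCI` (helper99)); BINDER-FREE;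
  `exists_base_presentation` : the same starting from an ARBITRARY presentation `ψ` (RECENTER);
* `(B2)` `exists_smul_eq_of_free` : `[Module.Free T L]` (the spelling of the E6 output
  `GE6/MinRT.free_of_patchingDatum`; any rank, no chosen basis), `I = O · x₀` ⟹ `L[𝔭] = x₀ • L`;
  `card_Omega_eq_of_free`, `w0_of_free`, `w0_of_free_of_eta_ne_bot` :
  `#CongMod B (span (range b)) = etaCard π ^ d` in the spelling of `Ind.chain` / `EtaBridge`
  (on top of helper50's `EtaBase.card_Omega_eq_eta_of_smul_surjective`);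
* `h0_of_base` : the binder `h0` of `Ind.chain`, verbatim.
-/
import Mathlib
import Fermat.Agent.GE9.Ind.Recenter
import Fermat.Agent.GE9.Ind.Step
import Fermat.Agent.GE9.NumCrit.TateFinal
import Fermat.Agent.GE9.NumCrit.ModForm.EtaBase

set_option autoImplicit false

namespace Fermat.Agent.GE9.Ind

open Fermat.Agent.GE9.NumCrit Fermat.Agent.GE9.NumCrit.ModForm Fermat.Agent.GE9
  IsLocalRing MvPowerSeries

section B1

variable {O : Type*} [CommRing O] [IsDomain O] [IsDiscreteValuationRing O]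
  [Finite (ResidueField O)]

/-- a nonzero ideal of a DVR with finite residue field has finite index. -/
theorem finite_quotient_of_ne_bot (I : Ideal O) (hI : I ≠ ⊥) : Finite (O ⧸ I) := by
  obtain ⟨e, he⟩ : ∃ e : O, I = Ideal.span {e} :=
    ⟨_, (Ideal.span_singleton_generator I).symm⟩
  have he0 : e ≠ 0 := by
    intro h0
    apply hI
    rw [he, h0, Ideal.span_singleton_eq_bot]
  rw [he]
  exact finite_quotient_span he0

/-- **(B1)** for a centered complete-intersection presentation of `R ≅ T`. -/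
theorem base_tan {m : ℕ} {R T : Type*} [CommRing R] [Algebra O R]
    [CommRing T] [Algebra O T] [Module.Finite O T] (φ : R →ₐ[O] T) (hφ : Function.Bijective φ)
    (πT : T →ₐ[O] O) (hη : etaIdeal πT ≠ ⊥)
    (ρ : MvPowerSeries (Fin m) O →ₐ[O] R) (hρ : Function.Surjective ρ)
    (hρε : ∀ u, πT (φ (ρ u)) = constantCoeff u)
    (f : Fin m → MvPowerSeries (Fin m) O) (hker : RingHom.ker ρ = Ideal.span (Set.range f)) :
    Finite (RingHom.ker (πT.comp φ)).Cotangent ∧ tanCard (πT.comp φ) = etaCard πT := by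
  let e : R ≃ₐ[O] T := AlgEquiv.ofBijective φ hφ
  have : Module.Finite O R := Module.Finite.equiv e.symm.toLinearEquiv
  obtain ⟨-, hcard⟩ := Tate.card_cotangent_eq_card_etaIdeal_of_finite TateFinal.detNotMemCI
    (πT.comp φ) ρ hρ (fun u => hρε u) f hker
  have hηeq : etaIdeal (πT.comp φ) = etaIdeal πT :=
    etaIdeal_eq_of_equiv e (πT.comp φ) πT (AlgHom.ext fun x => rfl)
  rw [hηeq] at hcard
  have : Finite (O ⧸ etaIdeal πT) := finite_quotient_of_ne_bot _ hη
  have hpos : Nat.card (O ⧸ etaIdeal πT) ≠ 0 := Nat.card_pos.ne'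
  refine ⟨?_, hcard⟩
  have h1 : Nat.card (RingHom.ker (πT.comp φ)).Cotangent ≠ 0 := by rw [hcard]; exact hpos
  exact (Nat.card_ne_zero.mp h1).2

variable [IsAdicComplete (maximalIdeal O) O]

/-- **(B1) from an arbitrary presentation** (the S57 output): recentre, then Tate–Wiebe. -/
theorem exists_base_presentation {m : ℕ} {R T : Type*} [CommRing R]
    [Algebra O R] [CommRing T] [Algebra O T] [Module.Finite O T] (φ : R →ₐ[O] T)
    (hφ : Function.Bijective φ) (πT : T →ₐ[O] O) (hη : etaIdeal πT ≠ ⊥)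
    (ψ : MvPowerSeries (Fin m) O →ₐ[O] R) (hψ : Function.Surjective ψ)
    (f : Fin m → MvPowerSeries (Fin m) O) (hker : RingHom.ker ψ = Ideal.span (Set.range f)) :
    ∃ ρ : MvPowerSeries (Fin m) O →ₐ[O] R, Function.Surjective ρ ∧
      (∀ u, πT (φ (ρ u)) = constantCoeff u) ∧
      (∃ f' : Fin m → MvPowerSeries (Fin m) O, RingHom.ker ρ = Ideal.span (Set.range f')) ∧
      Finite (RingHom.ker (πT.comp φ)).Cotangent ∧ tanCard (πT.comp φ) = etaCard πT := by
  obtain ⟨τ, hτsurj, hτε⟩ := recenter (πT.comp φ) ψ hψ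
  have hker' := ker_comp_equiv ψ τ f hker
  refine ⟨_, hτsurj, fun u => hτε u, ⟨_, hker'⟩, ?_⟩
  exact base_tan φ hφ πT hη _ hτsurj (fun u => hτε u) _ hker'

end B1

section B2

variable {O T L : Type*} [CommRing O] [CommRing T] [Algebra O T] {π : T →ₐ[O] O}
  [AddCommGroup L] [Module O L] [Module T L] [IsScalarTower O T L]

/-- **`L` free over `T`, `I = O · x₀` ⟹ `L[𝔭] = x₀ • L`.** -/
theorem exists_smul_eq_of_free {x₀ : T} (h : AnnGen π x₀) [Module.Free T L] {p : L}
    (hp : p ∈ torP π L) : ∃ l : L, x₀ • l = p := by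
  classical
  let β := Module.Free.chooseBasis T L
  have hc : ∀ j, β.repr p j ∈ annP π := by
    intro j
    rw [mem_annP]
    intro t ht
    have h1 : t • p = 0 := hp t ht
    have h2 : β.repr (t • p) j = 0 := by rw [h1, map_zero, Finsupp.zero_apply]
    rw [map_smul, Finsupp.smul_apply, smul_eq_mul] at h2
    rw [mul_comm]
    exact h2
  choose c hc' using fun j => h.gen _ (hc j)
  refine ⟨(β.repr p).sum fun j _ => c j • β j, ?_⟩
  rw [Finsupp.smul_sum]
  conv_rhs => rw [← β.linearCombination_repr p, Finsupp.linearCombination_apply]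
  refine Finsupp.sum_congr fun j _ => ?_
  rw [smul_comm, ← smul_assoc, ← hc' j]

/-- `L` free over `T` ⟹ `#Ω_L = #(O ⧸ η_T) ^ d`. -/
theorem card_Omega_eq_of_free {x₀ : T} (h : AnnGen π x₀) {d : ℕ}
    (b : Module.Basis (Fin d) O (torPO π L)) [Module.Free T L] :
    Nat.card (Omega π L) = etaCard π ^ d :=
  card_Omega_eq_eta_of_smul_surjective h b fun _ hp => exists_smul_eq_of_free h hp

/-- **(B2)** in the spelling of `Ind.chain` / `EtaBridge.hM1_of_annGen`. -/
theorem w0_of_free [NoZeroDivisors O] (B : L →ₗ[O] L →ₗ[O] O)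
    (hadj : ∀ (t : T) (x y : L), B (t • x) y = B x (t • y))
    (hnd : ∀ w : L, (∀ z : L, B z w = 0) → w = 0)
    {x₀ : T} (h : AnnGen π x₀) (hπx₀ : π x₀ ≠ 0) [Module.Free T L]
    {d : ℕ} (b : Fin d → L) (hli : LinearIndependent O b)
    (hspan : Submodule.span O (Set.range b) = torPO π L) :
    Nat.card (Eta.CongMod B (Submodule.span O (Set.range b))) = etaCard π ^ d := by
  rw [card_congMod_span_eq_card_Omega B hadj hnd h.mem hπx₀ b hspan]
  exact card_Omega_eq_of_free h (basisOfSpan b hli hspan)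

/-- **(B2)**, general form: `O` a principal ideal domain, `T` torsion-free, `η_T ≠ 0`. -/
theorem w0_of_free_of_eta_ne_bot [IsDomain O] [IsPrincipalIdealRing O] [NoZeroSMulDivisors O T]
    (B : L →ₗ[O] L →ₗ[O] O)
    (hadj : ∀ (t : T) (x y : L), B (t • x) y = B x (t • y))
    (hnd : ∀ w : L, (∀ z : L, B z w = 0) → w = 0)
    (hη : etaIdeal π ≠ ⊥) [Module.Free T L]
    {d : ℕ} (b : Fin d → L) (hli : LinearIndependent O b)
    (hspan : Submodule.span O (Set.range b) = torPO π L) :
    Nat.card (Eta.CongMod B (Submodule.span O (Set.range b))) = etaCard π ^ d := by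
  obtain ⟨x₀, hπx₀, hgen⟩ := annGen_of_eta_ne_bot π hη
  exact w0_of_free B hadj hnd hgen hπx₀ b hli hspan

end B2

section H0

variable {O : Type*} [CommRing O] [IsDomain O] [IsDiscreteValuationRing O]
  [Finite (ResidueField O)]

/-- **the binder `h0` of `Ind.chain`**, for a centered presentation of the minimal `R ≅ T`,
`T` finite free over `O`, `L` free over `T` with a `T`-adjoint non-degenerate pairing. -/
theorem h0_of_base {m : ℕ} {R T : Type*} [CommRing R] [Algebra O R]
    [CommRing T] [Algebra O T] [Module.Finite O T] [NoZeroSMulDivisors O T] (φ : R →ₐ[O] T)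
    (hφ : Function.Bijective φ) (πT : T →ₐ[O] O) (hη : etaIdeal πT ≠ ⊥)
    (ρ : MvPowerSeries (Fin m) O →ₐ[O] R) (hρ : Function.Surjective ρ)
    (hρε : ∀ u, πT (φ (ρ u)) = constantCoeff u)
    (f : Fin m → MvPowerSeries (Fin m) O) (hker : RingHom.ker ρ = Ideal.span (Set.range f))
    {L : Type*} [AddCommGroup L] [Module O L] [Module T L] [IsScalarTower O T L]
    [Module.Free T L] (B : L →ₗ[O] L →ₗ[O] O)
    (hadj : ∀ (t : T) (x y : L), B (t • x) y = B x (t • y))
    (hnd : ∀ w : L, (∀ z : L, B z w = 0) → w = 0)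
    {d : ℕ} (b : Fin d → L) (hli : LinearIndependent O b)
    (hspan : Submodule.span O (Set.range b) = torPO πT L) :
    Finite (RingHom.ker (πT.comp φ)).Cotangent ∧ tanCard (πT.comp φ) = etaCard πT ∧
      Nat.card (Eta.CongMod B (Submodule.span O (Set.range b))) = etaCard πT ^ d := by
  obtain ⟨h1, h2⟩ := base_tan φ hφ πT hη ρ hρ hρε f hker
  exact ⟨h1, h2, w0_of_free_of_eta_ne_bot B hadj hnd hη b hli hspan⟩

end H0

end Fermat.Agent.GE9.Ind
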