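/-
GATE-E / GE9-IND-RT (helper63): **the E9 side of the ENGINE CONTRACT** (`GE/Graph/RTStmt.RTData`).

`RTNum ρbar 𝒟 d` = an `R = T` datum (`RTData`) together with a modular point `πO : T → 𝒪` and the
NUMERICAL INVARIANT carried by the induction over `Σ`:
  `𝔭_R/𝔭_R²` finite,  `#(𝔭_R/𝔭_R²) = #(𝒪 ⧸ η_T)`,  `w = #(𝒪 ⧸ η_T) ^ d`   (`w = #Ω_L`).

* `RTNum.ofRaw`  : bundle raw data (`D`, Hecke side, `φ` bijective, `πO`, invariant) — used for the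
  BASE (E6 output + `Ind.h0_of_base` / `h0_of_patchingDatum`);
* `next_core`    : ONE STEP `Σ → Σ ∪ {q}` at the level of `Prop`s: raw data of the next stage with
  `φ'` only SURJECTIVE, ANY presentation `γ : 𝒪⟦X⟧ ↠ R'` (no centering needed: `Ind.recenter`),
  and the three inequalities (GROWTH) (ETA) (M1)  ⟹  `φ'` bijective ∧ the invariant at the new stage;
* `RTNum.next`   : the next `RTNum` (all projections reduce by `rfl`);
* `RTNum.exists_point` : the plug `RTData.exists_point` re-exported.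
-/
import Mathlib
import Fermat.Agent.GE.Graph.RTStmt
import Fermat.Agent.GE9.Ind.Step
import Fermat.Agent.GE9.Ind.Recenter

set_option autoImplicit false

namespace Fermat.Agent.GE9.Ind

open Fermat.Agent.GE.Graph Fermat.Agent.GE9.NumCrit IsLocalRing CuspForm Polynomial

/-- `G_ℚ`. -/
local notation "GQ" => (AlgebraicClosure ℚ ≃ₐ[ℚ] AlgebraicClosure ℚ)

variable {𝒪 : Type} [CommRing 𝒪] [IsDomain 𝒪] [IsDiscreteValuationRing 𝒪]
  [IsAdicComplete (maximalIdeal 𝒪) 𝒪]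

/-- **An `R = T` datum with a modular point and the numerical invariant of the induction.** -/
structure RTNum (ρbar : ResidualGaloisRep (ResidueField 𝒪)) (𝒟 : DefCondE 𝒪) (d : ℕ) :
    Type 1 where
  /-- the `R = T` datum -/
  rt : RTData ρbar 𝒟
  /-- the modular point -/
  πO : rt.T →ₐ[𝒪] 𝒪
  /-- `#Ω_L` -/
  w : ℕ
  fin_cot : Finite (RingHom.ker (πO.comp rt.φ)).Cotangent
  tan_eq : tanCard (πO.comp rt.φ) = etaCard πO
  w_eq : w = etaCard πO ^ d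

/-- bundle raw data into an `RTNum` (the BASE of the induction). -/
def RTNum.ofRaw {ρbar : ResidualGaloisRep (ResidueField 𝒪)} {𝒟 : DefCondE 𝒪} {d : ℕ}
    (D : GaloisRep.DeformationRingData 𝒪 ρbar 𝒟)
    {N : ℕ} [NeZero N] {S : Set ℕ} {T : Type} [CommRing T] [IsLocalRing T] [Algebra 𝒪 T]
    (π : heckeAlgebra N 2 S →+* T) (ρT : GaloisRepAdic T)
    (hcp : ∀ (q : ℕ) (hq : q.Prime) (hqN : ¬ q ∣ N) (hqS : q ∉ S),
      ∀ A : ValuationSubring (AlgebraicClosure ℚ), A.LiesOverPrime q →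
        ∀ σ : GQ, A.IsFrobeniusAt σ q →
          LinearMap.charpoly (ρT.ρ σ) =
            X ^ 2 - C (π (heckeAlgebra.T hq hqN hqS)) * X + C ((q : T)))
    (φ : D.R →ₐ[𝒪] T) (hφ : Function.Bijective φ) (φ_local : IsLocalHom (φ : D.R →+* T))
    (φ_ρ : (D.ρ.baseChangeAlong (φ : D.R →+* T) φ_local).IsEquiv ρT)
    (πO : T →ₐ[𝒪] 𝒪) (w : ℕ)
    (h : Finite (RingHom.ker (πO.comp φ)).Cotangent ∧ tanCard (πO.comp φ) = etaCard πO ∧
      w = etaCard πO ^ d) : RTNum ρbar 𝒟 d where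
  rt :=
    { N := N
      S := S
      T := T
      π := π
      ρT := ρT
      charpoly_frob := hcp
      D := D
      φ := φ
      φ_bijective := hφ
      φ_local := φ_local
      φ_ρ := φ_ρ }
  πO := πO
  w := w
  fin_cot := h.1
  tan_eq := h.2.1
  w_eq := h.2.2

variable [Finite (ResidueField 𝒪)]

/-- **ONE STEP of the induction, `Prop` level.**  `a, w` = the invariant of the previous stage. -/
theorem next_core {R' T' : Type} [CommRing R'] [Algebra 𝒪 R'] [CommRing T'] [Algebra 𝒪 T']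
    [Module.Finite 𝒪 T'] [Module.Free 𝒪 T'] (φ' : R' →ₐ[𝒪] T') (hφ' : Function.Surjective φ')
    (πO' : T' →ₐ[𝒪] 𝒪) (hη' : etaIdeal πO' ≠ ⊥)
    {m : ℕ} (γ : MvPowerSeries (Fin m) 𝒪 →ₐ[𝒪] R') (hγ : Function.Surjective γ)
    {d : ℕ} (hd : d ≠ 0) (a w c w' : ℕ) (hw : w = a ^ d)
    (hgrow : Finite (RingHom.ker (πO'.comp φ')).Cotangent ∧ tanCard (πO'.comp φ') ≤ a * c)
    (heta : w * c ^ d ≤ w') (hM1 : w' ≤ etaCard πO' ^ d) :
    Function.Bijective φ' ∧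
      (∃ (ρ' : MvPowerSeries (Fin m) 𝒪 →ₐ[𝒪] R') (f : Fin m → MvPowerSeries (Fin m) 𝒪),
        Function.Surjective ρ' ∧ RingHom.ker (φ'.comp ρ') = Ideal.span (Set.range f)) ∧
      Finite (RingHom.ker (πO'.comp φ')).Cotangent ∧
      tanCard (πO'.comp φ') = etaCard πO' ∧ tanCard (πO'.comp φ') = a * c ∧
      w' = etaCard πO' ^ d := by
  obtain ⟨τ, hτsurj, hτε⟩ := recenter (πO'.comp φ') γ hγ
  have : Finite (RingHom.ker (πO'.comp φ')).Cotangent := hgrow.1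
  have heta' : (a * c) ^ d ≤ w' := by
    rw [mul_pow, ← hw]
    exact heta
  obtain ⟨hbij, ⟨f, hf⟩, h4, h5, h6⟩ := step φ' hφ' πO' _ hτsurj (fun u => hτε u) hη' hd a c w'
    hgrow.2 heta' hM1
  exact ⟨hbij, ⟨_, f, hτsurj, hf⟩, hgrow.1, h4, h5, h6⟩

/-- **ONE STEP of the induction `Σ → Σ ∪ {q}` in the vocabulary of the engine contract.** -/
def RTNum.next {ρbar : ResidualGaloisRep (ResidueField 𝒪)} {𝒟 𝒟' : DefCondE 𝒪} {d : ℕ}
    (hd : d ≠ 0) (Y : RTNum ρbar 𝒟 d)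
    (D' : GaloisRep.DeformationRingData 𝒪 ρbar 𝒟')
    {N' : ℕ} [NeZero N'] {S' : Set ℕ} {T' : Type} [CommRing T'] [IsLocalRing T'] [Algebra 𝒪 T']
    [Module.Finite 𝒪 T'] [Module.Free 𝒪 T']
    (π' : heckeAlgebra N' 2 S' →+* T') (ρT' : GaloisRepAdic T')
    (hcp' : ∀ (q : ℕ) (hq : q.Prime) (hqN : ¬ q ∣ N') (hqS : q ∉ S'),
      ∀ A : ValuationSubring (AlgebraicClosure ℚ), A.LiesOverPrime q →
        ∀ σ : GQ, A.IsFrobeniusAt σ q →
          LinearMap.charpoly (ρT'.ρ σ) =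
            X ^ 2 - C (π' (heckeAlgebra.T hq hqN hqS)) * X + C ((q : T')))
    (φ' : D'.R →ₐ[𝒪] T') (hφ' : Function.Surjective φ')
    (φ'_local : IsLocalHom (φ' : D'.R →+* T'))
    (φ'_ρ : (D'.ρ.baseChangeAlong (φ' : D'.R →+* T') φ'_local).IsEquiv ρT')
    (πO' : T' →ₐ[𝒪] 𝒪) (hη' : etaIdeal πO' ≠ ⊥)
    {m : ℕ} (γ : MvPowerSeries (Fin m) 𝒪 →ₐ[𝒪] D'.R) (hγ : Function.Surjective γ)
    (c w' : ℕ)
    (hgrow : Finite (RingHom.ker (Y.πO.comp Y.rt.φ)).Cotangent →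
      Finite (RingHom.ker (πO'.comp φ')).Cotangent ∧
        tanCard (πO'.comp φ') ≤ tanCard (Y.πO.comp Y.rt.φ) * c)
    (heta : Y.w * c ^ d ≤ w') (hM1 : w' ≤ etaCard πO' ^ d) : RTNum ρbar 𝒟' d :=
  have hcore := next_core φ' hφ' πO' hη' γ hγ hd (tanCard (Y.πO.comp Y.rt.φ)) Y.w c w'
    (by rw [Y.w_eq, Y.tan_eq]) (hgrow Y.fin_cot) heta hM1
  RTNum.ofRaw D' π' ρT' hcp' φ' hcore.1 φ'_local φ'_ρ πO' w'
    ⟨hcore.2.2.1, hcore.2.2.2.1, hcore.2.2.2.2.2⟩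

omit [Finite (ResidueField 𝒪)] in
/-- **the plug**: every `𝒪`-valued deformation of type `𝒟` is modular of level `Y.rt.N`. -/
theorem RTNum.exists_point {ρbar : ResidualGaloisRep (ResidueField 𝒪)} {𝒟 : DefCondE 𝒪} {d : ℕ}
    (Y : RTNum ρbar 𝒟 d) (ρ : GaloisRepAdic 𝒪) (h𝒟 : 𝒟 ρ)
    (hres : ρ.residual.IsEquiv (ρbar.baseChangeAlong (ResidueField.map (algebraMap 𝒪 𝒪)))) :
    ∃ χ : heckeAlgebra Y.rt.N 2 Y.rt.S →+* 𝒪,
      ∀ (ℓ : ℕ) (hℓ : ℓ.Prime) (hℓN : ¬ ℓ ∣ Y.rt.N) (hℓS : ℓ ∉ Y.rt.S),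
        ∀ A : ValuationSubring (AlgebraicClosure ℚ), A.LiesOverPrime ℓ →
          ∀ σ : GQ, A.IsFrobeniusAt σ ℓ →
            LinearMap.charpoly (ρ.ρ σ) =
              X ^ 2 - C (χ (heckeAlgebra.T hℓ hℓN hℓS)) * X + C ((ℓ : 𝒪)) :=
  Y.rt.exists_point ρ h𝒟 hres

end Fermat.Agent.GE9.Ind
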