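/-
GATE-E / GE9-IND-RT (helper63) — file 2: **the BASE `RTNum`** (minimal level, `Σ = ∅`).

From the E6 output (`GE6/MinRT`, `GE6/Assembly`: `φ : D.R → T` BIJECTIVE, a complete-intersection
presentation `ψ : 𝒪⟦X₁..X_m⟧ ↠ D.R`, `ker ψ = (f₁..f_m)`, the Hecke module `L` free over `T`) and the
modular point `πO : T → 𝒪` with a `T`-adjoint right non-degenerate pairing on `L`:
`RTNum.ofMin : RTNum ρbar 𝒟 d` with `w := #CongMod B (span (range b))` — the start of the induction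
`RTNum.next`.  (`Ind.exists_base_presentation` + `Ind.w0_of_free_of_eta_ne_bot`.)
-/
import Mathlib
import Fermat.Agent.GE9.Ind.RT
import Fermat.Agent.GE9.Ind.Base

set_option autoImplicit false

namespace Fermat.Agent.GE9.Ind

open Fermat.Agent.GE.Graph Fermat.Agent.GE9.NumCrit Fermat.Agent.GE9.NumCrit.ModForm
  Fermat.Agent.GE9 IsLocalRing CuspForm Polynomial

/-- `G_ℚ`. -/
local notation "GQ" => (AlgebraicClosure ℚ ≃ₐ[ℚ] AlgebraicClosure ℚ)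

variable {𝒪 : Type} [CommRing 𝒪] [IsDomain 𝒪] [IsDiscreteValuationRing 𝒪]
  [IsAdicComplete (maximalIdeal 𝒪) 𝒪] [Finite (ResidueField 𝒪)]

/-- the invariant `h0` at the minimal level, from an UNcentered c.i. presentation. -/
theorem h0_of_min {R T : Type*} [CommRing R] [Algebra 𝒪 R] [CommRing T] [Algebra 𝒪 T]
    [Module.Finite 𝒪 T] [NoZeroSMulDivisors 𝒪 T] (φ : R →ₐ[𝒪] T) (hφ : Function.Bijective φ)
    (πO : T →ₐ[𝒪] 𝒪) (hη : etaIdeal πO ≠ ⊥)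
    {m : ℕ} (ψ : MvPowerSeries (Fin m) 𝒪 →ₐ[𝒪] R) (hψ : Function.Surjective ψ)
    (f : Fin m → MvPowerSeries (Fin m) 𝒪) (hker : RingHom.ker ψ = Ideal.span (Set.range f))
    {L : Type*} [AddCommGroup L] [Module 𝒪 L] [Module T L] [IsScalarTower 𝒪 T L]
    [Module.Free T L] (B : L →ₗ[𝒪] L →ₗ[𝒪] 𝒪)
    (hadj : ∀ (t : T) (x y : L), B (t • x) y = B x (t • y))
    (hnd : ∀ w : L, (∀ z : L, B z w = 0) → w = 0)
    {d : ℕ} (b : Fin d → L) (hli : LinearIndependent 𝒪 b)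
    (hspan : Submodule.span 𝒪 (Set.range b) = torPO πO L) :
    Finite (RingHom.ker (πO.comp φ)).Cotangent ∧ tanCard (πO.comp φ) = etaCard πO ∧
      Nat.card (Eta.CongMod B (Submodule.span 𝒪 (Set.range b))) = etaCard πO ^ d := by
  obtain ⟨-, -, -, -, h1, h2⟩ := exists_base_presentation φ hφ πO hη ψ hψ f hker
  exact ⟨h1, h2, w0_of_free_of_eta_ne_bot B hadj hnd hη b hli hspan⟩

/-- **the BASE of the induction**: the minimal `R = T` datum with its numerical invariant. -/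
noncomputable def RTNum.ofMin {ρbar : ResidualGaloisRep (ResidueField 𝒪)} {𝒟 : DefCondE 𝒪} {d : ℕ}
    (D : GaloisRep.DeformationRingData 𝒪 ρbar 𝒟)
    {N : ℕ} [NeZero N] {S : Set ℕ} {T : Type} [CommRing T] [IsLocalRing T] [Algebra 𝒪 T]
    [Module.Finite 𝒪 T] [NoZeroSMulDivisors 𝒪 T]
    (π : heckeAlgebra N 2 S →+* T) (ρT : GaloisRepAdic T)
    (hcp : ∀ (q : ℕ) (hq : q.Prime) (hqN : ¬ q ∣ N) (hqS : q ∉ S),
      ∀ A : ValuationSubring (AlgebraicClosure ℚ), A.LiesOverPrime q →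
        ∀ σ : GQ, A.IsFrobeniusAt σ q →
          LinearMap.charpoly (ρT.ρ σ) =
            X ^ 2 - C (π (heckeAlgebra.T hq hqN hqS)) * X + C ((q : T)))
    (φ : D.R →ₐ[𝒪] T) (hφ : Function.Bijective φ) (φ_local : IsLocalHom (φ : D.R →+* T))
    (φ_ρ : (D.ρ.baseChangeAlong (φ : D.R →+* T) φ_local).IsEquiv ρT)
    (πO : T →ₐ[𝒪] 𝒪) (hη : etaIdeal πO ≠ ⊥)
    {m : ℕ} (ψ : MvPowerSeries (Fin m) 𝒪 →ₐ[𝒪] D.R) (hψ : Function.Surjective ψ)
    (f : Fin m → MvPowerSeries (Fin m) 𝒪) (hker : RingHom.ker ψ = Ideal.span (Set.range f))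
    {L : Type*} [AddCommGroup L] [Module 𝒪 L] [Module T L] [IsScalarTower 𝒪 T L]
    [Module.Free T L] (B : L →ₗ[𝒪] L →ₗ[𝒪] 𝒪)
    (hadj : ∀ (t : T) (x y : L), B (t • x) y = B x (t • y))
    (hnd : ∀ w : L, (∀ z : L, B z w = 0) → w = 0)
    (b : Fin d → L) (hli : LinearIndependent 𝒪 b)
    (hspan : Submodule.span 𝒪 (Set.range b) = torPO πO L) : RTNum ρbar 𝒟 d :=
  RTNum.ofRaw D π ρT hcp φ hφ φ_local φ_ρ πO
    (Nat.card (Eta.CongMod B (Submodule.span 𝒪 (Set.range b))))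
    (h0_of_min φ hφ πO hη ψ hψ f hker B hadj hnd b hli hspan)

end Fermat.Agent.GE9.Ind
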