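/-
GATE-E / E9-IND (helper63) — seam file: the `hgrow` binder of `Ind.chain` from the tame relation
(`GE9/TanGrow`), in exactly the spelling of `chain` (plug-test of the GROWTH ↔ IND seam), and the
`heta` binder from helper2's `GE9/Eta/Abstract.card_congMod_growth` (plug-test of the ETA ↔ IND seam).
-/
import Mathlib
import Fermat.Agent.GE9.Ind.Step
import Fermat.Agent.GE9.TanGrow.Fin
import Fermat.Agent.GE9.Eta.Abstract

set_option autoImplicit false

namespace Fermat.Agent.GE9.Ind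

open Fermat.Agent.GE9.NumCrit Fermat.Agent.GE9.TanGrow IsLocalRing Matrix

variable {O : Type*} [CommRing O] [IsDomain O] [IsDiscreteValuationRing O]
  [Finite (ResidueField O)]

/-- **GROWTH ⟹ `hgrow`.**  One step of `chain`'s binder `hgrow` from the tame relation at `q`:
`f : R' ↠ R` compatible with the augmentations `π_T ∘ φ`, `π_T' ∘ φ'`, kernel inside the entry ideal of
`Tm = ρ'(τ)`, `F = ρ'(Frob_q)`, `F Tm = Tm^q F`, `det π'(F) = q` a unit, `c_q ≠ 0`. -/
theorem hgrow_of_tame {R R' T T' : Type*} [CommRing R] [Algebra O R] [CommRing R'] [Algebra O R']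
    [CommRing T] [Algebra O T] [CommRing T'] [Algebra O T']
    (φ : R →ₐ[O] T) (φ' : R' →ₐ[O] T') (πT : T →ₐ[O] O) (πT' : T' →ₐ[O] O)
    (f : R' →ₐ[O] R) (hf : Function.Surjective f)
    (hπ : (πT.comp φ).comp f = πT'.comp φ')
    {F Tm : Matrix (Fin 2) (Fin 2) R'} {q : ℕ}
    (hT : Tm.map (πT'.comp φ') = 1) (hdet : Tm.det = 1) (hrel : F * Tm = Tm ^ q * F)
    (hker : RingHom.ker (f : R' →+* R) ≤ entryIdeal Tm)
    (hq : IsUnit (q : O)) (hdetF : (F0 (πT'.comp φ') F).det = (q : O))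
    (hc : wilesFactor (F0 (πT'.comp φ') F) (q : O) ≠ 0) :
    Finite (RingHom.ker (πT.comp φ)).Cotangent →
      Finite (RingHom.ker (πT'.comp φ')).Cotangent ∧
        tanCard (πT'.comp φ') ≤ tanCard (πT.comp φ) *
          Nat.card (O ⧸ Ideal.span {wilesFactor (F0 (πT'.comp φ') F) (q : O)}) := by
  intro hfin
  exact finite_and_card_cotangent_le_mul_wiles (πT'.comp φ') (πT.comp φ) f hf hπ hT hdet hrel hker
    hq hdetF hc

/-- **ETA ⟹ `heta`.**  One step of `chain`'s binder `heta` (with equality) from helper2's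
`card_congMod_growth`: `w := #(L ⧸ (P ⊔ P^⊥))`, `c := #(O ⧸ (c_q))`. -/
theorem heta_of_gram {L L' : Type*} [AddCommGroup L] [Module O L] [AddCommGroup L'] [Module O L']
    (B : L →ₗ[O] L →ₗ[O] O) (B' : L' →ₗ[O] L' →ₗ[O] O) {d : ℕ}
    (b : Fin d → L) (b' : Fin d → L') (cq : O) (hcq : cq ≠ 0)
    (hext : ∀ a : Fin d → O, ∃ x : L, ∀ i, B (b i) x = a i)
    (hext' : ∀ a : Fin d → O, ∃ x : L', ∀ i, B' (b' i) x = a i)
    (hdet : (Eta.gram B b).det ≠ 0)
    (h : ∀ i j, B' (b' i) (b' j) = cq * B (b i) (b j)) :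
    Nat.card (Eta.CongMod B (Submodule.span O (Set.range b))) *
        Nat.card (O ⧸ Ideal.span {cq}) ^ d ≤
      Nat.card (Eta.CongMod B' (Submodule.span O (Set.range b'))) :=
  (Eta.card_congMod_growth B B' b b' cq hcq hext hext' hdet h).ge

end Fermat.Agent.GE9.Ind
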