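/-
GATE-E / E9-BASE = GE9-IND-BASE (helper63) — file 3: **SEAM PLUG-TEST E6 → E9**.

The output of the minimal case (`GE6/MinRT.bijective_of_patchingDatum`, `free_of_patchingDatum`:
a Prelude `PatchingDatum` for the Hecke module `M` over `R`, `R ↠ T` compatible) is turned, with no
adapter, into the stage-`0` input of `Ind.chain`:

* `φ` bijective, `M` free over `T`;
* a CENTERED presentation `ρ : 𝒪⟦X₁..X_r⟧ ↠ R` (`π_T ∘ φ ∘ ρ = constantCoeff`) with `r` relations;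
* the binder `h0` of `Ind.chain` : `𝔭_R/𝔭_R²` finite, `tanCard = etaCard`, `w 0 = etaCard ^ d`.

Binders that remain = exactly the arithmetic of the minimal level: the patching datum `D`
(E6-LEVEL), the augmentation `π_T` with `η_T ≠ 0` (E7/E8.7: the modular point), the pairing `B`
(`T`-adjoint, right non-degenerate) and an `𝒪`-basis `b` of `M[𝔭]` (GE9-ETA).
-/
import Mathlib
import Fermat.Agent.GE6.MinRT
import Fermat.Agent.GE9.Ind.Base

set_option autoImplicit false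

namespace Fermat.Agent.GE9.Ind

open Fermat.Agent.GE9.NumCrit Fermat.Agent.GE9.NumCrit.ModForm Fermat.Agent.GE9
  IsLocalRing MvPowerSeries

variable {𝒪 : Type} [CommRing 𝒪] [IsDomain 𝒪] [IsDiscreteValuationRing 𝒪]
  [IsAdicComplete (maximalIdeal 𝒪) 𝒪] [Finite (ResidueField 𝒪)] {ℓ r : ℕ}
  {R : Type} [CommRing R] [IsLocalRing R] [IsNoetherianRing R]
  [IsAdicComplete (maximalIdeal R) R] [Algebra 𝒪 R] [IsLocalHom (algebraMap 𝒪 R)]
  {T : Type} [CommRing T] [Algebra 𝒪 T] [Module.Finite 𝒪 T] [NoZeroSMulDivisors 𝒪 T]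
  {M : Type} [AddCommGroup M] [Module R M] [Module T M] [Nontrivial M]
  [Module 𝒪 M] [IsScalarTower 𝒪 T M]

/-- **E6 ⟹ stage `0` of `Ind.chain`.** -/
theorem h0_of_patchingDatum (hℓ : (ℓ : 𝒪) ∈ maximalIdeal 𝒪)
    (hres : Function.Surjective (residue R ∘ algebraMap 𝒪 R))
    (φ : R →ₐ[𝒪] T) (hφ : Function.Surjective φ)
    (hcompat : ∀ (x : R) (m : M), x • m = φ x • m)
    (D : Algebra.PatchingDatum 𝒪 ℓ r R M)
    (πT : T →ₐ[𝒪] 𝒪) (hη : etaIdeal πT ≠ ⊥)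
    (B : M →ₗ[𝒪] M →ₗ[𝒪] 𝒪)
    (hadj : ∀ (t : T) (x y : M), B (t • x) y = B x (t • y))
    (hnd : ∀ w : M, (∀ z : M, B z w = 0) → w = 0)
    {d : ℕ} (b : Fin d → M) (hli : LinearIndependent 𝒪 b)
    (hspan : Submodule.span 𝒪 (Set.range b) = torPO πT M) :
    Function.Bijective φ ∧ Module.Free T M ∧
      ∃ ρ : MvPowerSeries (Fin r) 𝒪 →ₐ[𝒪] R, Function.Surjective ρ ∧
        (∀ u, πT (φ (ρ u)) = constantCoeff u) ∧
        (∃ f : Fin r → MvPowerSeries (Fin r) 𝒪, RingHom.ker ρ = Ideal.span (Set.range f)) ∧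
        (Finite (RingHom.ker (πT.comp φ)).Cotangent ∧ tanCard (πT.comp φ) = etaCard πT ∧
          Nat.card (Eta.CongMod B (Submodule.span 𝒪 (Set.range b))) = etaCard πT ^ d) := by
  obtain ⟨hbij, -, L, hker⟩ :=
    Fermat.Agent.GE6.MinRT.bijective_of_patchingDatum hℓ hres φ hφ hcompat D
  have hfree : Module.Free T M :=
    Fermat.Agent.GE6.MinRT.free_of_patchingDatum hℓ hres φ hφ hcompat D
  obtain ⟨ρ, hρ, hρε, ⟨f, hf⟩, hfin, htan⟩ :=
    exists_base_presentation φ hbij πT hη L.ψ L.ψ_surjective _ hker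
  exact ⟨hbij, hfree, ρ, hρ, hρε, ⟨f, hf⟩, hfin, htan,
    w0_of_free_of_eta_ne_bot B hadj hnd hη b hli hspan⟩

end Fermat.Agent.GE9.Ind
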